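import Mathlib
import Fermat.Agent.LT.T7.H340.UpFactSpec
import Fermat.Agent.LT.T7.H558.SigmaLoc
import Fermat.Agent.LT.T7.H454.PtFact

/-!
# Row LT, tower T7, leaf T7.L2.1.C2.7.13.1.B2 `PtFactUpC340` (registry 2750) -- helper852

OFF-MAIN.  No hole, nothing assumed.

    ptFactUpC852 (K K') : H340.PtFactUpC340 K K'        VERBATIM

Spec: `LT/T7/H340/UpFactSpec.lean` (helper340@4a08d18e4, sha256 04981afb), byte-identical copy
with its closure.  Inputs (byte-identical copies): `sigmaLocC558` (helper558, the local form of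
the adelic automorphism: `σ(y) ∈ Out_{S'}`), the component lemmas of helper454 (`PtFact.lean`).

For `y ∈ Out_{S'}` and `δ` integral outside `S'` the element `g = y⁻¹ δ σ(y) r'^j` lies in
`Out_{S'}` (`S'` is stable under `σ`), so the pure tensor at `g` is the product of its local
components over `S'` and over the infinite places of `K'`; `S'` is the disjoint union of the
fibres over `S = S_in ⊔ S_sp`, the infinite places of `K'` are the disjoint union of the fibres
over the infinite places of `K`; the local components are computed by the fields `sig` of the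
local data.  The module declares names under `Fermat.Agent.LT.T7.H852` only.
-/

set_option autoImplicit false
set_option linter.unusedSectionVars false

open IsDedekindDomain NumberField
open scoped ComplexConjugate

noncomputable section

namespace Fermat.Agent.LT.T7.H852

open Fermat.Agent.LT.H556 Fermat.Agent.LT.H556.A0 Fermat.Agent.LT.T7 Fermat.Agent.LT.T7.H305
open Fermat.Agent.LT.T7.H558 Fermat.Agent.LT.T7.H340 Fermat.Agent.LT.T7.H454.PtFact

/-! ## 1. `σ` preserves `Out_{S'}` -/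

section OneField

variable {K : Type} [Field K] [NumberField K]

/-- Every place is the image of a place under `σ`. -/
theorem exists_placeRel852 (s : T5.AdelicAut K) (w' : HeightOneSpectrum (𝓞 K)) :
    ∃ w : HeightOneSpectrum (𝓞 K), T5.PlaceRel s w w' := by
  set e : 𝓞 K ≃+* 𝓞 K := NumberField.RingOfIntegers.mapRingEquiv s.σ with he
  have hmc : Ideal.map (e : 𝓞 K →+* 𝓞 K) (Ideal.comap (e : 𝓞 K →+* 𝓞 K) w'.asIdeal)
      = w'.asIdeal := Ideal.map_comap_of_surjective _ e.surjective _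
  refine ⟨⟨Ideal.comap (e : 𝓞 K →+* 𝓞 K) w'.asIdeal, Ideal.comap_isPrime _ _, ?_⟩, ?_⟩
  · intro h
    rw [h, Ideal.map_bot] at hmc
    exact w'.ne_bot hmc.symm
  · exact hmc.symm

theorem finComp_onG852 (s : T5.AdelicAut K) (w : HeightOneSpectrum (𝓞 K)) (y : G K)
    (i k : Fin 2) :
    finComp w (s.onG y) i k
      = T5.finHom w (s.σA ((y : Matrix (Fin 2) (Fin 2) (Adl K)) i k)) := rfl

theorem finComp_apply852 (w : HeightOneSpectrum (𝓞 K)) (y : G K) (i k : Fin 2) :
    finComp w y i k = T5.finHom w ((y : Matrix (Fin 2) (Fin 2) (Adl K)) i k) := rfl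

/-- `σ` maps the elements which are integral at `w` to elements integral at `σ w`. -/
theorem isIntegralAt_onG852 (s : T5.AdelicAut K) {w w' : HeightOneSpectrum (𝓞 K)}
    (h : T5.PlaceRel s w w') {y : G K} (hy : IsIntegralAt w y) :
    IsIntegralAt w' (s.onG y) := by
  obtain ⟨sw, -, hval, hsig⟩ := (sigmaLocC558 (K := K) s).1 w w' h
  intro i k
  rw [finComp_onG852, hsig, HeightOneSpectrum.mem_adicCompletionIntegers, hval,
    ← HeightOneSpectrum.mem_adicCompletionIntegers, ← finComp_apply852]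
  exact hy i k

end OneField

section TwoFields

variable {K K' : Type} [Field K] [NumberField K] [Field K'] [NumberField K'] [Algebra K K']

/-- The generator fixes the image of `K`. -/
theorem sigma_algebraMap852 {D : CompData K K'} (hD : IsCompData D) (x : K) :
    D.s.σ (algebraMap K K' x) = algebraMap K K' x :=
  (hD.cyc.fixed _).1 ((hD.base _).2 ⟨x, rfl⟩)

/-- The place of `K` under a place of `K'` is unique. -/
theorem placeOver_down_unique852 {v v' : HeightOneSpectrum (𝓞 K)}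
    {w : HeightOneSpectrum (𝓞 K')} (h : PlaceOver K K' v w) (h' : PlaceOver K K' v' w) :
    v = v' := by
  apply HeightOneSpectrum.ext
  ext x
  have e : ((algebraMap (𝓞 K) (𝓞 K') x : 𝓞 K') : K') = algebraMap K K' (x : K) := rfl
  rw [h x _ e, h' x _ e]

/-- `σ w` lies over the same place as `w`. -/
theorem placeOver_of_rel852 {D : CompData K K'} (hD : IsCompData D)
    {v : HeightOneSpectrum (𝓞 K)} {w w' : HeightOneSpectrum (𝓞 K')}
    (h : T5.PlaceRel D.s w w') (hv : PlaceOver K K' v w) : PlaceOver K K' v w' := by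
  intro x y hxy
  rw [hv x y hxy]
  have hfix : NumberField.RingOfIntegers.mapRingEquiv D.s.σ y = y := by
    apply NumberField.RingOfIntegers.ext
    show D.s.σ (y : K') = (y : K')
    rw [hxy]
    exact sigma_algebraMap852 hD _
  have hsymm : (NumberField.RingOfIntegers.mapRingEquiv D.s.σ).symm y = y := by
    rw [RingEquiv.symm_apply_eq]
    exact hfix.symm
  have h1 : w'.asIdeal
      = Ideal.comap ((NumberField.RingOfIntegers.mapRingEquiv D.s.σ).symm : 𝓞 K' →+* 𝓞 K')
          w.asIdeal := by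
    rw [h]
    exact Ideal.map_comap_of_equiv _
  rw [h1, Ideal.mem_comap]
  show y ∈ w.asIdeal ↔ (NumberField.RingOfIntegers.mapRingEquiv D.s.σ).symm y ∈ w.asIdeal
  rw [hsymm]

/-- `σ` preserves `Out_{S'}` when `S'` is the set of the places over `S`. -/
theorem outT_onG852 {D : CompData K K'} (hD : IsCompData D)
    {S : Finset (HeightOneSpectrum (𝓞 K))} {S' : Finset (HeightOneSpectrum (𝓞 K'))}
    (hS : IsOver305 S S') {y : G K'} (hy : OutT305 S' y) : OutT305 S' (D.s.onG y) := by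
  intro w' hw'
  obtain ⟨w, hw⟩ := exists_placeRel852 D.s w'
  have hwS : w ∉ S' := by
    intro hmem
    obtain ⟨v, hvS, hv⟩ := (hS w).1 hmem
    exact hw' ((hS w').2 ⟨v, hvS, placeOver_of_rel852 hD hw hv⟩)
  refine ⟨isIntegralAt_onG852 D.s hw (hy w hwS).1, ?_⟩
  rw [← map_inv]
  exact isIntegralAt_onG852 D.s hw (hy w hwS).2

/-- `y⁻¹ δ σ(y) r'^j ∈ Out_{S'}`. -/
theorem outT_term852 {D : CompData K K'} (hD : IsCompData D)
    {S : Finset (HeightOneSpectrum (𝓞 K))} {S' : Finset (HeightOneSpectrum (𝓞 K'))}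
    (hS : IsOver305 S S') {δ : GL (Fin 2) K'} (hδ : IntOut305 S' δ) {y : G K'}
    (hy : OutT305 S' y) (j : ℤ) :
    OutT305 S' (y⁻¹ * T5.ratG δ * D.s.onG y * D.R'.r ^ j) := by
  have hr : T5.IsRayGen D.R'.r := hD.frame'.ray
  have hσ := outT_onG852 hD hS hy
  intro v hv
  have hyv : IntAt454 v y := hy v hv
  have hδv : IntAt454 v (T5.ratG δ) := intAt_ratG454 (hδ v hv)
  have hsv : IntAt454 v (D.s.onG y) := hσ v hv
  have hrv : IntAt454 v (D.R'.r ^ j) :=
    intAt_of_triv454 (trivAtFin_of_finGL454 (finGL_ray_zpow454 hr v j))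
  exact intAt_mul454 (intAt_mul454 (intAt_mul454 (intAt_inv454 hyv) hδv) hsv) hrv

/-! ## 2. The fibres -/

/-- The finite product over `S'` is the product over the fibres. -/
theorem prod_fibres_fin852 {D : CompData K K'} {ι : Adl K →+* Adl K'}
    {n : HeightOneSpectrum (𝓞 K') → ℕ} {S : Finset (HeightOneSpectrum (𝓞 K))}
    {S' : Finset (HeightOneSpectrum (𝓞 K'))} (hS : IsOver305 S S')
    {δ : GL (Fin 2) K'} {γ : GL (Fin 2) K} {L : LocData305 K γ} {U : UpDat340 K δ}
    (hU : IsUpDat340 D ι n L S U) (F : HeightOneSpectrum (𝓞 K') → ℂ) :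
    ∏ w ∈ S', F w
      = (∏ v : U.Sin, F (U.dI v).w) * ∏ v : U.Ssp, ∏ a : Fin D.l, F ((U.dS v).w a.1) := by
  classical
  let p : U.Sin ⊕ (U.Ssp × Fin D.l) → HeightOneSpectrum (𝓞 K') := fun x =>
    match x with
    | Sum.inl v => (U.dI v).w
    | Sum.inr x => (U.dS x.1).w x.2.1
  have hover : ∀ x : U.Sin ⊕ (U.Ssp × Fin D.l),
      ∃ v : HeightOneSpectrum (𝓞 K), v ∈ S ∧ PlaceOver K K' v (p x) ∧
        ((∃ h : v ∈ U.Sin, x = Sum.inl ⟨v, h⟩) ∨
          ∃ (h : v ∈ U.Ssp) (a : Fin D.l), x = Sum.inr (⟨v, h⟩, a)) := by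
    rintro (v | ⟨v, a⟩)
    · exact ⟨v.1, (hU.union v.1).2 (Or.inl v.2), (hU.inert v).ovr, Or.inl ⟨v.2, rfl⟩⟩
    · exact ⟨v.1, (hU.union v.1).2 (Or.inr v.2), (hU.split v).ovr a.1, Or.inr ⟨v.2, a, rfl⟩⟩
  have hinj : Function.Injective p := by
    intro x x' hxx
    obtain ⟨v, -, hv, hx⟩ := hover x
    obtain ⟨v', -, hv', hx'⟩ := hover x'
    rw [hxx] at hv
    have hvv : v = v' := placeOver_down_unique852 hv hv'
    subst hvv
    rcases hx with ⟨h, rfl⟩ | ⟨h, a, rfl⟩
    · rcases hx' with ⟨h', rfl⟩ | ⟨h', a', rfl⟩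
      · rfl
      · exact absurd h' (hU.disj v h)
    · rcases hx' with ⟨h', rfl⟩ | ⟨h', a', rfl⟩
      · exact absurd h (hU.disj v h')
      · have e : a = a' :=
          Fin.ext ((hU.split ⟨v, h⟩).inj a.1 a'.1 a.2 a'.2 hxx)
        rw [e]
  have himg : S' = Finset.univ.image p := by
    ext w
    rw [Finset.mem_image]
    constructor
    · intro hw
      obtain ⟨v, hvS, hv⟩ := (hS w).1 hw
      rcases (hU.union v).1 hvS with h | h
      · exact ⟨Sum.inl ⟨v, h⟩, Finset.mem_univ _, ((hU.inert ⟨v, h⟩).uniq w hv).symm⟩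
      · obtain ⟨a, ha, hwa⟩ := (hU.split ⟨v, h⟩).exh w hv
        exact ⟨Sum.inr (⟨v, h⟩, ⟨a, ha⟩), Finset.mem_univ _, hwa.symm⟩
    · rintro ⟨x, -, rfl⟩
      obtain ⟨v, hvS, hv, -⟩ := hover x
      exact (hS _).2 ⟨v, hvS, hv⟩
  rw [himg, Finset.prod_image (fun x _ x' _ h => hinj h), Fintype.prod_sum_type,
    Fintype.prod_prod_type]

/-- The product over the infinite places of `K'` is the product over the fibres. -/
theorem prod_fibres_inf852 {D : CompData K K'} {ι : Adl K →+* Adl K'}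
    {n : HeightOneSpectrum (𝓞 K') → ℕ} {S : Finset (HeightOneSpectrum (𝓞 K))}
    {δ : GL (Fin 2) K'} {γ : GL (Fin 2) K} {L : LocData305 K γ} {U : UpDat340 K δ}
    (hU : IsUpDat340 D ι n L S U) (F : InfinitePlace K' → ℂ) :
    ∏ w : InfinitePlace K', F w
      = ∏ v : InfinitePlace K, ∏ a : Fin D.l, F ((U.dA v).w a.1) := by
  classical
  let q : InfinitePlace K × Fin D.l → InfinitePlace K' := fun x => (U.dA x.1).w x.2.1
  have hq : Function.Bijective q := by
    constructor
    · rintro ⟨v, a⟩ ⟨v', a'⟩ h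
      have h1 : ((U.dA v).w a.1).comap (algebraMap K K') = v := (hU.arch v).ovr a.1
      have h2 : ((U.dA v').w a'.1).comap (algebraMap K K') = v' := (hU.arch v').ovr a'.1
      have hvv : v = v' := by
        rw [← h1, ← h2]
        exact congrArg (fun w : InfinitePlace K' => w.comap (algebraMap K K')) h
      subst hvv
      have e : a = a' := Fin.ext ((hU.arch v).inj a.1 a'.1 a.2 a'.2 h)
      rw [e]
    · intro w
      obtain ⟨a, ha, hwa⟩ := (hU.arch (w.comap (algebraMap K K'))).exh w rfl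
      exact ⟨(w.comap (algebraMap K K'), ⟨a, ha⟩), hwa.symm⟩
  rw [← Fintype.prod_prod_type (f := fun x : InfinitePlace K × Fin D.l => F (q x))]
  exact (Fintype.prod_bijective q hq _ _ fun _ => rfl).symm

/-! ## 3. The local components -/

/-- The finite components of `y⁻¹ δ σ(y) r'^j`. -/
theorem finGL_term852 {D : CompData K K'} (hD : IsCompData D) (w : HeightOneSpectrum (𝓞 K'))
    (δ : GL (Fin 2) K') (y : G K') (j : ℤ) :
    finGL305 w (y⁻¹ * T5.ratG δ * D.s.onG y * D.R'.r ^ j)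
      = (finGL305 w y)⁻¹ * locG305 w δ * finGL305 w (D.s.onG y) := by
  rw [map_mul, map_mul, map_mul, map_inv, finGL_ratG454,
    finGL_ray_zpow454 hD.frame'.ray w j, mul_one]

/-- The infinite components of `y⁻¹ δ σ(y) r'^j`. -/
theorem infGL_term852 {D : CompData K K'} (hD : IsCompData D) (w : InfinitePlace K')
    (δ : GL (Fin 2) K') (y : G K') (j : ℤ) :
    infGL305 w (y⁻¹ * T5.ratG δ * D.s.onG y * D.R'.r ^ j)
      = (infGL305 w y)⁻¹ * infGL305 w (T5.ratG δ * D.R'.r ^ j) * infGL305 w (D.s.onG y) := by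
  have hc : Commute (infGL305 w D.R'.r ^ j) (infGL305 w (D.s.onG y)) :=
    (commute_infGL_ray454 hD.frame'.ray w (infGL305 w (D.s.onG y))).zpow_left j
  rw [map_mul, map_mul, map_mul, map_mul, map_inv, map_zpow, mul_assoc, mul_assoc, mul_assoc,
    mul_assoc, hc.eq]

/-- The component of `σ(y)` at a place with ONE place over it. -/
theorem finGL_onG_inert852 {D : CompData K K'} {ι : Adl K →+* Adl K'}
    {n : HeightOneSpectrum (𝓞 K') → ℕ} {δ : GL (Fin 2) K'} {γ : GL (Fin 2) K}
    {L : LocData305 K γ} {v : HeightOneSpectrum (𝓞 K)} {d : InertDat340 δ v}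
    (hd : IsInertDat340 D ι n L d) (y : G K') :
    finGL305 d.w (D.s.onG y) = T6.glAut d.sw (finGL305 d.w y) := by
  apply Units.ext
  refine Matrix.ext fun i k => ?_
  exact hd.sig _

/-- The coordinates at a split place, back in `K'_{w_a}`. -/
theorem map_coordS852 {v : HeightOneSpectrum (𝓞 K)} (d : SplitDat340 K' v) (l : ℕ) (y : G K')
    (a : Fin l) :
    Matrix.GeneralLinearGroup.map
        ((d.i a.1 : v.adicCompletion K ≃+* _) : v.adicCompletion K →+* (d.w a.1).adicCompletion K')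
        (coordS340 d l y a) = finGL305 (d.w a.1) y := by
  apply Units.ext
  refine Matrix.ext fun i k => ?_
  exact (d.i a.1).apply_symm_apply _

/-- The components of `δ` at a split place, back in `K'_{w_j}`. -/
theorem map_delS852 (δ : GL (Fin 2) K') {v : HeightOneSpectrum (𝓞 K)} (d : SplitDat340 K' v)
    (j : ℕ) :
    Matrix.GeneralLinearGroup.map
        ((d.i j : v.adicCompletion K ≃+* _) : v.adicCompletion K →+* (d.w j).adicCompletion K')
        (delS340 δ d j) = locG305 (d.w j) δ := by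
  apply Units.ext
  refine Matrix.ext fun i k => ?_
  exact (d.i j).apply_symm_apply _

/-- The component of `σ(y)` at a split place. -/
theorem finGL_onG_split852 {D : CompData K K'} {ι : Adl K →+* Adl K'}
    {v : HeightOneSpectrum (𝓞 K)} {d : SplitDat340 K' v} (hd : IsSplitDat340 D ι d)
    (a : Fin D.l) (y : G K') :
    Matrix.GeneralLinearGroup.map
        ((d.i a.1 : v.adicCompletion K ≃+* _) : v.adicCompletion K →+* (d.w a.1).adicCompletion K')
        (coordS340 d D.l y (cycSucc340 a)) = finGL305 (d.w a.1) (D.s.onG y) := by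
  apply Units.ext
  refine Matrix.ext fun i k => ?_
  have h := hd.sig a ((y : Matrix (Fin 2) (Fin 2) (Adl K')) i k)
  have h2 := congrArg (d.i a.1) h
  rw [RingEquiv.apply_symm_apply] at h2
  exact h2.symm

/-- The local term at a split place. -/
theorem split_term852 {D : CompData K K'} (hD : IsCompData D) {ι : Adl K →+* Adl K'}
    {v : HeightOneSpectrum (𝓞 K)} {d : SplitDat340 K' v} (hd : IsSplitDat340 D ι d)
    (φ₀ : ∀ w : HeightOneSpectrum (𝓞 K'), GL (Fin 2) (w.adicCompletion K') → ℂ)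
    (δ : GL (Fin 2) K') (y : G K') (j : ℤ) (a : Fin D.l) :
    φ₀ (d.w a.1) (finGL305 (d.w a.1) (y⁻¹ * T5.ratG δ * D.s.onG y * D.R'.r ^ j))
      = phiS340 φ₀ d a.1
          ((coordS340 d D.l y a)⁻¹ * delS340 δ d a.1 * coordS340 d D.l y (cycSucc340 a)) := by
  have e : Matrix.GeneralLinearGroup.map
      ((d.i a.1 : v.adicCompletion K ≃+* _) :
        v.adicCompletion K →+* (d.w a.1).adicCompletion K')
      ((coordS340 d D.l y a)⁻¹ * delS340 δ d a.1 * coordS340 d D.l y (cycSucc340 a))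
      = finGL305 (d.w a.1) (y⁻¹ * T5.ratG δ * D.s.onG y * D.R'.r ^ j) := by
    rw [finGL_term852 hD, map_mul, map_mul, map_inv, map_coordS852, map_delS852,
      finGL_onG_split852 hd]
  show _ = φ₀ (d.w a.1) (Matrix.GeneralLinearGroup.map
    ((d.i a.1 : v.adicCompletion K ≃+* _) : v.adicCompletion K →+* (d.w a.1).adicCompletion K')
    ((coordS340 d D.l y a)⁻¹ * delS340 δ d a.1 * coordS340 d D.l y (cycSucc340 a)))
  rw [e]

/-- The coordinates of `σ(y)` at an infinite place. -/
theorem infGL_onG_arch852 {D : CompData K K'} {ι : Adl K →+* Adl K'} {v : InfinitePlace K}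
    {d : ArchDat340 K'} (hd : IsArchDat340 D ι v d) (a : Fin D.l) (y : G K') :
    Matrix.GeneralLinearGroup.map (d.d a.1) (infGL305 (d.w a.1) (D.s.onG y))
      = coordA340 d D.l y (cycSucc340 a) := by
  apply Units.ext
  refine Matrix.ext fun i k => ?_
  exact hd.sig a ((y : Matrix (Fin 2) (Fin 2) (Adl K')) i k)

/-- A conjugation-invariant function does not see the type. -/
theorem phi_map_type852 (Φ : GL (Fin 2) ℂ → ℂ) (hΦ : ∀ g : GL (Fin 2) ℂ, Φ (conjGL305 g) = Φ g)
    (c : ℂ →+* ℂ) (hc : c = RingHom.id ℂ ∨ c = starRingEnd ℂ) (X : GL (Fin 2) ℂ) :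
    Φ (Matrix.GeneralLinearGroup.map c X) = Φ X := by
  rcases hc with rfl | rfl
  · have e : Matrix.GeneralLinearGroup.map (RingHom.id ℂ) X = X := by
      apply Units.ext
      ext i k
      rfl
    rw [e]
  · exact hΦ X

/-- The local term at an infinite place. -/
theorem arch_term852 {D : CompData K K'} (hD : IsCompData D) {ι : Adl K →+* Adl K'}
    {v : InfinitePlace K} {d : ArchDat340 K'} (hd : IsArchDat340 D ι v d)
    (Φ : InfinitePlace K' → GL (Fin 2) ℂ → ℂ)
    (hΦ : ∀ (w : InfinitePlace K') (g : GL (Fin 2) ℂ), Φ w (conjGL305 g) = Φ w g)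
    (δ : GL (Fin 2) K') (y : G K') (j : ℤ) (a : Fin D.l) :
    Φ (d.w a.1) (infGL305 (d.w a.1) (y⁻¹ * T5.ratG δ * D.s.onG y * D.R'.r ^ j))
      = Φ (d.w a.1)
          ((coordA340 d D.l y a)⁻¹ * delA340 D.R'.r δ d j a.1
            * coordA340 d D.l y (cycSucc340 a)) := by
  have e : (coordA340 d D.l y a)⁻¹ * delA340 D.R'.r δ d j a.1
        * coordA340 d D.l y (cycSucc340 a)
      = Matrix.GeneralLinearGroup.map (d.d a.1)
          (infGL305 (d.w a.1) (y⁻¹ * T5.ratG δ * D.s.onG y * D.R'.r ^ j)) := by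
    rw [infGL_term852 hD, map_mul, map_mul, map_inv, infGL_onG_arch852 hd]
    rfl
  rw [e, phi_map_type852 (Φ (d.w a.1)) (hΦ (d.w a.1)) (d.d a.1) (hd.typ a.1)]

/-! ## 4. The leaf -/

/-- **LEAF UF.B2 = PT-FACT-UP.** -/
theorem ptFactUpC852 (K K' : Type) [Field K] [NumberField K] [Field K'] [NumberField K']
    [Algebra K K'] : PtFactUpC340 K K' := by
  intro D hD _ _ _ ι _ n S S' hS φ₀ Φ hΦ δ γ hδ L U hU y j hy
  have hout := outT_term852 hD hS hδ hy j
  have e : pure305 S' φ₀ Φ (y⁻¹ * T5.ratG δ * D.s.onG y * D.R'.r ^ j)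
      = (∏ w ∈ S', φ₀ w (finGL305 w (y⁻¹ * T5.ratG δ * D.s.onG y * D.R'.r ^ j))) *
        ∏ w : InfinitePlace K',
          Φ w (infGL305 w (y⁻¹ * T5.ratG δ * D.s.onG y * D.R'.r ^ j)) :=
    if_pos hout
  rw [e, prod_fibres_fin852 hS hU, prod_fibres_inf852 hU]
  have e1 : (∏ v : U.Sin, φ₀ (U.dI v).w
        (finGL305 (U.dI v).w (y⁻¹ * T5.ratG δ * D.s.onG y * D.R'.r ^ j)))
      = ∏ v : U.Sin, φ₀ (U.dI v).w
          ((finGL305 (U.dI v).w y)⁻¹ * locG305 (U.dI v).w δ
            * T6.glAut (U.dI v).sw (finGL305 (U.dI v).w y)) :=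
    Finset.prod_congr rfl fun v _ => by
      rw [finGL_term852 hD, finGL_onG_inert852 (hU.inert v)]
  have e2 : (∏ v : U.Ssp, ∏ a : Fin D.l, φ₀ ((U.dS v).w a.1)
        (finGL305 ((U.dS v).w a.1) (y⁻¹ * T5.ratG δ * D.s.onG y * D.R'.r ^ j)))
      = ∏ v : U.Ssp, cycProd340 D.l (phiS340 φ₀ (U.dS v)) (delS340 δ (U.dS v))
          (coordS340 (U.dS v) D.l y) :=
    Finset.prod_congr rfl fun v _ =>
      Finset.prod_congr rfl fun a _ => split_term852 hD (hU.split v) φ₀ δ y j a
  have e3 : (∏ v : InfinitePlace K, ∏ a : Fin D.l, Φ ((U.dA v).w a.1)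
        (infGL305 ((U.dA v).w a.1) (y⁻¹ * T5.ratG δ * D.s.onG y * D.R'.r ^ j)))
      = ∏ v : InfinitePlace K, cycProd340 D.l (fun a => Φ ((U.dA v).w a))
          (delA340 D.R'.r δ (U.dA v) j) (coordA340 (U.dA v) D.l y) :=
    Finset.prod_congr rfl fun v _ =>
      Finset.prod_congr rfl fun a _ => arch_term852 hD (hU.arch v) Φ hΦ δ y j a
  rw [e1, e2, e3]

end TwoFields

end Fermat.Agent.LT.T7.H852

end
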